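/-
S36, block T3 (owner helper38): the comparison `ℂ ⊗ Λ ≃ Hom_par(Γ₀(N), ℂ)` and its equivariance
for the Hecke algebra.
-/
import Fermat.Agent.Lib.HeckeHom.LatHom

set_option autoImplicit false

open CongruenceSubgroup ModularCurve ModularCurve.Period CuspForm TensorProduct
open Fermat.Agent.Lib.HeckeHom

namespace Fermat.Agent.S36.New

variable (N : ℕ) [NeZero N]

instance instFreeLam : Module.Free ℤ (Lam N) :=
  (Fermat.Agent.S16.Lift.free_finite_parabolicHoms_int N).1

instance instFiniteLam : Module.Finite ℤ (Lam N) :=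
  (Fermat.Agent.S16.Lift.free_finite_parabolicHoms_int N).2

/-- The comparison map `ℂ ⊗ Λ → Hom_par(Γ₀(N), ℂ)`. -/
noncomputable def cmp : ℂ ⊗[ℤ] Lam N →ₗ[ℂ] parabolicHoms ℂ (Gamma0 N) ℂ :=
  LinearMap.liftBaseChange ℂ (lamEmb N).toIntLinearMap

omit [NeZero N] in
theorem cmp_tmul (z : ℂ) (φ : Lam N) : cmp N (z ⊗ₜ[ℤ] φ) = z • lamEmb N φ := by
  simp [cmp]

theorem cmp_surjective : Function.Surjective (cmp N) := by
  rw [← LinearMap.range_eq_top, eq_top_iff, ← span_range_lamEmb N, Submodule.span_le]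
  rintro _ ⟨φ, rfl⟩
  exact ⟨1 ⊗ₜ[ℤ] φ, by rw [cmp_tmul, one_smul]⟩

theorem cmp_injective : Function.Injective (cmp N) := by
  have := Fermat.Agent.S21.finite_cuspForm N
  have hfin : Module.Finite ℂ (parabolicHoms ℂ (Gamma0 N) ℂ) :=
    Module.Finite.equiv (esEquiv N)
  have hrk : Module.finrank ℂ (ℂ ⊗[ℤ] Lam N)
      = Module.finrank ℂ (parabolicHoms ℂ (Gamma0 N) ℂ) := by
    rw [Module.finrank_baseChange, Fermat.Agent.S16.Lift.finrank_parabolicHoms_int,
      Fermat.Agent.S16.Lift.finrank_parabolicHoms_complex]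
  exact (LinearMap.injective_iff_surjective_of_finrank_eq_finrank hrk).2 (cmp_surjective N)

theorem cmp_baseChange (S : Set ℕ) (t : heckeAlgebra N 2 S) (y : ℂ ⊗[ℤ] Lam N) :
    cmp N ((latHom N S t).baseChange ℂ y) = hatHom N t.1 (cmp N y) := by
  induction y using TensorProduct.induction_on with
  | zero => simp
  | tmul z φ =>
    rw [LinearMap.baseChange_tmul, cmp_tmul, cmp_tmul, lamEmb_latHom, map_smul]
  | add a b ha hb => rw [map_add, map_add, map_add, map_add, ha, hb]

end Fermat.Agent.S36.New
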