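/-
S36, block T3 (owner helper38): **newness gives a separating Hecke polynomial.**

If `g` is a newform of level `M` and `N'` is a proper divisor of `M`, there is a polynomial `P₀`
with integer coefficients in the variables `X_ℓ` (`ℓ` prime, `ℓ ∤ M`) such that `P₀(T_ℓ) = 0` at
level `N'` whereas `P₀(a_ℓ(g)) ≠ 0`.
-/
import Fermat.Agent.S36.New.Compare
import Fermat.Agent.S36.Top.Eigen
import Fermat.Agent.S49.CommonEigen
import Fermat.Agent.S49.Eigenform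
import Fermat.Agent.Lib.HeckeHom.Faithful
import Fermat.Agent.S29.Eigen
import Fermat.Agent.S30.Defs
import Fermat.Prelude.Def_CuspForm_Newforms

set_option autoImplicit false

open CongruenceSubgroup ModularCurve ModularCurve.Period CuspForm TensorProduct ModularFormClass
open Fermat.Agent.Lib.HeckeHom

namespace Fermat.Agent.S36.New

section Eigen

variable (N : ℕ) [NeZero N]

/-- A character of a ring `R` mapping to the Hecke algebra which kills the kernel of `R → 𝕋` is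
the system of eigenvalues of a nonzero cusp form. -/
theorem exists_cuspForm_of_char (S : Set ℕ) {R : Type*} [CommRing R]
    (j : R →+* heckeAlgebra N 2 S) (χ : R →+* ℂ) (h : ∀ r, j r = 0 → χ r = 0) :
    ∃ f : CuspForm (Gamma0 N) 2, f ≠ 0 ∧
      ∀ r, (j r : Module.End ℂ (CuspForm (Gamma0 N) 2)) f = χ r • f := by
  classical
  let χ' : R ⧸ RingHom.ker j →+* ℂ := Ideal.Quotient.lift (RingHom.ker j) χ h
  let act : R ⧸ RingHom.ker j →+* Module.End ℤ (Lam N) := (latHom N S).comp (RingHom.kerLift j)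
  have hact : Function.Injective act :=
    (latHom_injective N S).comp (RingHom.kerLift_injective j)
  have hprime : (RingHom.ker χ').IsPrime := RingHom.ker_isPrime χ'
  obtain ⟨y, hy0, hy, -⟩ := Fermat.Agent.S36.Top.exists_eigenvector (𝒪 := ℂ) act hact
    (RingHom.ker χ') (fun n hn => by
      rw [RingHom.mem_ker, map_intCast] at hn
      exact_mod_cast hn)
    (Ideal.Quotient.mk (RingHom.ker j)) χ (fun r hr => by
      rw [RingHom.mem_ker] at hr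
      exact hr)
  have hψ0 : cmp N y ≠ 0 := fun h0 => hy0 (cmp_injective N (by rw [h0, map_zero]))
  have hψ : ∀ r, hatHom N (j r).1 (cmp N y) = χ r • cmp N y := by
    intro r
    rw [← cmp_baseChange, ← map_smul, ← hy r]
    rfl
  obtain ⟨⟨f₁, f₂⟩, hf⟩ := (esEquiv N).surjective (cmp N y)
  have hpair : ∀ r, ((j r).1 f₁, (j r).1 f₂) = χ r • (f₁, f₂) := by
    intro r
    apply (esEquiv N).injective
    rw [← hatHom_esEquiv, map_smul, hf, hψ r]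
  by_cases h1 : f₁ = 0
  · refine ⟨f₂, fun h2 => hψ0 ?_, fun r => congrArg Prod.snd (hpair r)⟩
    rw [← hf, h1, h2]
    exact map_zero _
  · exact ⟨f₁, h1, fun r => congrArg Prod.fst (hpair r)⟩

end Eigen

/-- The index set of the good primes. -/
abbrev GoodPrime (M : ℕ) : Type := {ℓ : ℕ // ℓ.Prime ∧ ¬ ℓ ∣ M}

/-- The family of the `T_ℓ`, `ℓ ∤ M`, at a level `N'` dividing `M`. -/
noncomputable def goodT {M N' : ℕ} [NeZero N'] (hN' : N' ∣ M) (S₁ : Set ℕ)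
    (hS₁ : ∀ ℓ : ℕ, ℓ.Prime → ¬ ℓ ∣ M → ℓ ∉ S₁) (ℓ : GoodPrime M) : heckeAlgebra N' 2 S₁ :=
  heckeAlgebra.T ℓ.2.1 (fun h => ℓ.2.2 (h.trans hN')) (hS₁ ℓ.1 ℓ.2.1 ℓ.2.2)

/-- A common eigenvector of the `T_ℓ`, `ℓ ∤ M`, at level `N'` gives a normalised eigenform of
level `N'` with the same eigenvalues. -/
theorem exists_normalizedEigenform_of_good_eigenvector {M N' : ℕ} [NeZero N'] (hN' : N' ∣ M)
    (a : ℕ → ℂ) (f : CuspForm (Gamma0 N') 2) (hf : f ≠ 0)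
    (h : ∀ (ℓ : ℕ) (hℓ : ℓ.Prime) (hℓM : ¬ ℓ ∣ M),
      heckeTLin 2 hℓ (fun h => hℓM (h.trans hN')) f = a ℓ • f) :
    ∃ f' : CuspForm (Gamma0 N') 2, f'.IsNormalizedEigenform ∧
      ∀ ℓ : ℕ, ℓ.Prime → ¬ ℓ ∣ M → qCoeff f' ℓ = a ℓ := by
  classical
  have := Fermat.Agent.S49.finiteDimensional_cuspForm (N := N')
  let W : Submodule ℂ (CuspForm (Gamma0 N') 2) :=
    { carrier := {x | ∀ (ℓ : ℕ) (hℓ : ℓ.Prime) (hℓM : ¬ ℓ ∣ M),
        heckeTLin 2 hℓ (fun h => hℓM (h.trans hN')) x = a ℓ • x}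
      add_mem' := by
        intro x y hx hy ℓ hℓ hℓM
        rw [map_add, hx ℓ hℓ hℓM, hy ℓ hℓ hℓM, smul_add]
      zero_mem' := by
        intro ℓ hℓ hℓM
        rw [map_zero, smul_zero]
      smul_mem' := by
        intro c x hx ℓ hℓ hℓM
        rw [map_smul, hx ℓ hℓ hℓM, smul_comm] }
  have hW : W ≠ ⊥ := by
    intro hbot
    have hfW : f ∈ W := h
    rw [hbot, Submodule.mem_bot] at hfW
    exact hf hfW
  let φ : heckeAlgebra N' 2 ∅ →+* Module.End ℂ (CuspForm (Gamma0 N') 2) :=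
    (heckeAlgebra N' 2 ∅).val.toRingHom
  have hst : ∀ t, ∀ w ∈ W, φ t w ∈ W := by
    intro t w hw ℓ hℓ hℓM
    have hc : (heckeAlgebra.T hℓ (fun h => hℓM (h.trans hN')) (Set.notMem_empty ℓ) :
        heckeAlgebra N' 2 ∅) * t = t * heckeAlgebra.T hℓ (fun h => hℓM (h.trans hN'))
          (Set.notMem_empty ℓ) := mul_comm _ _
    have hc' := congrArg (fun s : heckeAlgebra N' 2 ∅ =>
      (s : Module.End ℂ (CuspForm (Gamma0 N') 2)) w) hc
    simp only [MulMemClass.coe_mul, heckeAlgebra.coe_T, Module.End.mul_apply] at hc'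
    show heckeTLin 2 hℓ _ ((t : Module.End ℂ (CuspForm (Gamma0 N') 2)) w)
      = a ℓ • (t : Module.End ℂ (CuspForm (Gamma0 N') 2)) w
    rw [hc', hw ℓ hℓ hℓM, map_smul]
  obtain ⟨v, χ, hvW, hv0, hv⟩ := Fermat.Agent.S49.exists_common_eigenvector φ W hW hst
  obtain ⟨f', hf', hcoeff⟩ := Fermat.Agent.S49.exists_normalizedEigenform_of_eigenvector v hv0 χ hv
  refine ⟨f', hf', fun ℓ hℓ hℓM => ?_⟩
  rw [hcoeff ℓ hℓ (fun h => hℓM (h.trans hN'))]
  have h1 := hv (heckeAlgebra.T hℓ (fun h => hℓM (h.trans hN')) (Set.notMem_empty ℓ))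
  have h2 : φ (heckeAlgebra.T hℓ (fun h => hℓM (h.trans hN')) (Set.notMem_empty ℓ)) v
      = a ℓ • v := hvW ℓ hℓ hℓM
  rw [h2] at h1
  exact (smul_left_injective ℂ hv0 h1).symm

/-- **T3.** Newness gives a separating polynomial. -/
theorem exists_poly_of_isNewform {M : ℕ} {g : CuspForm (Gamma0 M) 2} (hg : g.IsNewform)
    {N' : ℕ} [NeZero N'] (hN' : N' ∣ M) (hne : N' ≠ M) (S₁ : Set ℕ)
    (hS₁ : ∀ ℓ : ℕ, ℓ.Prime → ¬ ℓ ∣ M → ℓ ∉ S₁) :
    ∃ P₀ : MvPolynomial (GoodPrime M) ℤ,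
      MvPolynomial.aeval (goodT hN' S₁ hS₁) P₀ = 0 ∧
      MvPolynomial.aeval (fun ℓ : GoodPrime M => qCoeff g ℓ.1) P₀ ≠ 0 := by
  by_contra hcon
  have hcon' : ∀ P₀ : MvPolynomial (GoodPrime M) ℤ,
      MvPolynomial.aeval (goodT hN' S₁ hS₁) P₀ = 0 →
      MvPolynomial.aeval (fun ℓ : GoodPrime M => qCoeff g ℓ.1) P₀ = 0 := by
    intro P₀ h0
    by_contra h1
    exact hcon ⟨P₀, h0, h1⟩
  obtain ⟨f, hf0, hf⟩ := exists_cuspForm_of_char N' S₁
    (R := MvPolynomial (GoodPrime M) ℤ)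
    ((MvPolynomial.aeval (goodT hN' S₁ hS₁) :
      MvPolynomial (GoodPrime M) ℤ →ₐ[ℤ] heckeAlgebra N' 2 S₁) : _ →+* _)
    ((MvPolynomial.aeval (fun ℓ : GoodPrime M => qCoeff g ℓ.1) :
      MvPolynomial (GoodPrime M) ℤ →ₐ[ℤ] ℂ) : _ →+* _) hcon'
  obtain ⟨f', hf', hcoeff⟩ := exists_normalizedEigenform_of_good_eigenvector hN'
    (fun ℓ => qCoeff g ℓ) f hf0 (by
      intro ℓ hℓ hℓM
      have := hf (MvPolynomial.X (⟨ℓ, hℓ, hℓM⟩ : GoodPrime M))
      simpa [goodT] using this)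
  exact hg.2 N' hN' hne ⟨f', hf', hcoeff⟩

/-- A character of the Hecke algebra evaluates polynomials in the `T_ℓ` in the expected way. -/
theorem char_aeval_goodT {M N' : ℕ} [NeZero N'] (hN' : N' ∣ M) (S₁ : Set ℕ)
    (hS₁ : ∀ ℓ : ℕ, ℓ.Prime → ¬ ℓ ∣ M → ℓ ∉ S₁) {A : Type*} [CommRing A]
    (χ : heckeAlgebra N' 2 S₁ →+* A) (a : ℕ → A)
    (hχ : ∀ ℓ : GoodPrime M, χ (goodT hN' S₁ hS₁ ℓ) = a ℓ.1)
    (P : MvPolynomial (GoodPrime M) ℤ) :
    χ (MvPolynomial.aeval (goodT hN' S₁ hS₁) P)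
      = MvPolynomial.aeval (fun ℓ : GoodPrime M => a ℓ.1) P := by
  induction P using MvPolynomial.induction_on with
  | C n => simp
  | add p q hp hq => rw [map_add, map_add, map_add, hp, hq]
  | mul_X p i hp => rw [map_mul, map_mul, map_mul, hp, MvPolynomial.aeval_X, MvPolynomial.aeval_X, hχ]

/-- **T3**, in the shape used by the top of S36: the polynomial kills the lattice of level `N'`
and is not killed by the eigencharacter of `g` at level `M`. -/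
theorem exists_poly_of_isNewform' {M : ℕ} [NeZero M] {g : CuspForm (Gamma0 M) 2}
    (hg : g.IsNewform) {N' : ℕ} [NeZero N'] (hN' : N' ∣ M) (hne : N' ≠ M) (S₁ S : Set ℕ)
    (hS₁ : ∀ ℓ : ℕ, ℓ.Prime → ¬ ℓ ∣ M → ℓ ∉ S₁) (hS : ∀ ℓ : ℕ, ℓ.Prime → ¬ ℓ ∣ M → ℓ ∉ S)
    (χ : heckeAlgebra M 2 S →+* ℂ)
    (hχ : ∀ (ℓ : ℕ) (hℓ : ℓ.Prime) (hℓM : ¬ ℓ ∣ M) (hℓS : ℓ ∉ S),
      χ (heckeAlgebra.T hℓ hℓM hℓS) = qCoeff g ℓ) :
    ∃ P₀ : MvPolynomial (GoodPrime M) ℤ,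
      (∀ φ : Lam N', latHom N' S₁ (MvPolynomial.aeval (goodT hN' S₁ hS₁) P₀) φ = 0) ∧
      χ (MvPolynomial.aeval (goodT (dvd_refl M) S hS) P₀) ≠ 0 := by
  obtain ⟨P₀, h0, h1⟩ := exists_poly_of_isNewform hg hN' hne S₁ hS₁
  refine ⟨P₀, fun φ => by rw [h0, map_zero, LinearMap.zero_apply], ?_⟩
  rw [char_aeval_goodT (dvd_refl M) S hS χ (fun ℓ => qCoeff g ℓ) (fun ℓ => hχ _ _ _ _)]
  exact h1

end Fermat.Agent.S36.New

namespace Fermat.Agent.S36

open Fermat.Agent.S30 Fermat.Agent.S36.New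

/-- **G5** (the shape consumed by the top of S36). -/
theorem exists_poly_of_isNewform {M : ℕ} [NeZero M] {g : CuspForm (CongruenceSubgroup.Gamma0 M) 2}
    (hg : g.IsNewform) (M' q : ℕ) [NeZero M'] (hM : M = M' * q) (hq : q.Prime) (hqM' : q ∣ M') :
    ∃ P : HA, polyHom M' (↑M.primeFactors : Set ℕ) P = 0 ∧
      Fermat.Agent.S29.Eigen.eigenChar hg.1 (↑M.primeFactors : Set ℕ)
        (polyHom M (↑M.primeFactors : Set ℕ) P) ≠ 0 := by
  have hM0 : M ≠ 0 := NeZero.ne M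
  have hN' : M' ∣ M := ⟨q, hM⟩
  have hne : M' ≠ M := by
    intro h
    have h1 : M' * 1 = M' * q := by rw [mul_one, ← hM, h]
    exact hq.one_lt.ne (Nat.eq_of_mul_eq_mul_left (Nat.pos_of_ne_zero (NeZero.ne M')) h1)
  have hS : ∀ ℓ : ℕ, ℓ.Prime → ¬ ℓ ∣ M → ℓ ∉ (↑M.primeFactors : Set ℕ) := by
    intro ℓ _ hℓM hmem
    exact hℓM (Nat.dvd_of_mem_primeFactors hmem)
  obtain ⟨P₀, h0, h1⟩ := New.exists_poly_of_isNewform hg hN' hne _ hS
  refine ⟨MvPolynomial.rename Subtype.val P₀, ?_, ?_⟩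
  · have : polyHom M' (↑M.primeFactors : Set ℕ) (MvPolynomial.rename Subtype.val P₀)
        = MvPolynomial.aeval (goodT hN' _ hS) P₀ := by
      show MvPolynomial.aeval (tOf M' _) (MvPolynomial.rename Subtype.val P₀) = _
      rw [MvPolynomial.aeval_rename]
      congr 2
      funext ℓ
      exact tOf_eq M' _ ℓ.2.1 (fun h => ℓ.2.2 (h.trans hN')) (hS ℓ.1 ℓ.2.1 ℓ.2.2)
    rw [this, h0]
  · rw [map_polyHom, MvPolynomial.aeval_rename]
    have : ((fun ℓ => Fermat.Agent.S29.Eigen.eigenChar hg.1 (↑M.primeFactors : Set ℕ)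
        (tOf M (↑M.primeFactors : Set ℕ) ℓ)) ∘ Subtype.val : GoodPrime M → ℂ)
        = fun ℓ : GoodPrime M => qCoeff g ℓ.1 := by
      funext ℓ
      show Fermat.Agent.S29.Eigen.eigenChar hg.1 _ (tOf M _ ℓ.1) = _
      rw [tOf_eq M _ ℓ.2.1 ℓ.2.2 (hS ℓ.1 ℓ.2.1 ℓ.2.2), Fermat.Agent.S29.Eigen.eigenChar_T]
    rw [this]
    exact h1

end Fermat.Agent.S36
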